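/-
S26, block CURVES (architect helper26), leaf SCH-EC: etale coordinates at a `K`-point of a smooth
`K`-scheme.
-/
import Fermat.Agent.S26.Curves.Defs

set_option autoImplicit false

universe u

open CategoryTheory CategoryTheory.Limits AlgebraicGeometry

namespace Fermat.Agent.S26.Curves

open Fermat.Agent.S25.Geom

variable {K : Type u} [Field K] {A : Scheme.{u}}

/-- Etale coordinates vanishing at the `K`-point `o`. -/
structure EtaleChart (f : A ⟶ SK K) (o : SK K ⟶ A) (ho : o ≫ f = 𝟙 _) (g : ℕ) where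
  U : A.Opens
  affine : IsAffineOpen U
  o_mem : ⊤ ≤ o ⁻¹ᵁ U
  φ : MvPolynomial (Fin g) K →ₐ[K] Sec f U
  etale : φ.toRingHom.Etale
  zero : ∀ j, evalAlg ho U o_mem (φ (MvPolynomial.X j)) = 0

/-- Translating etale coordinates.  (`φ' = φ ∘ τ` with `τ` the automorphism `X_j ↦ X_j - C (a j)` of the
polynomial ring; `RingHom.Etale.of_bijective`, `RingHom.Etale.stableUnderComposition`.) -/
theorem exists_etale_translate {B : Type u} [CommRing B] [Algebra K B] {g : ℕ}
    (φ : MvPolynomial (Fin g) K →ₐ[K] B) (hφ : φ.toRingHom.Etale) (a : Fin g → K) :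
    ∃ φ' : MvPolynomial (Fin g) K →ₐ[K] B, φ'.toRingHom.Etale ∧
      ∀ j, φ' (MvPolynomial.X j) = φ (MvPolynomial.X j) - algebraMap K B (a j) := by
  let τ : MvPolynomial (Fin g) K →ₐ[K] MvPolynomial (Fin g) K :=
    MvPolynomial.aeval fun j => MvPolynomial.X j - MvPolynomial.C (a j)
  let τ' : MvPolynomial (Fin g) K →ₐ[K] MvPolynomial (Fin g) K :=
    MvPolynomial.aeval fun j => MvPolynomial.X j + MvPolynomial.C (a j)
  have h1 : τ.comp τ' = AlgHom.id K _ := by
    apply MvPolynomial.algHom_ext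
    intro j
    simp [τ, τ']
  have h2 : τ'.comp τ = AlgHom.id K _ := by
    apply MvPolynomial.algHom_ext
    intro j
    simp [τ, τ']
  have hbij : Function.Bijective τ.toRingHom := by
    refine ⟨Function.LeftInverse.injective (g := τ') fun x => ?_,
      Function.RightInverse.surjective (g := τ') fun x => ?_⟩
    · exact congrArg (fun F : MvPolynomial (Fin g) K →ₐ[K] MvPolynomial (Fin g) K => F x) h2
    · exact congrArg (fun F : MvPolynomial (Fin g) K →ₐ[K] MvPolynomial (Fin g) K => F x) h1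
  refine ⟨φ.comp τ, ?_, fun j => ?_⟩
  · exact RingHom.Etale.stableUnderComposition _ _ (RingHom.Etale.of_bijective hbij) hφ
  · rw [AlgHom.comp_apply]
    simp only [τ, MvPolynomial.aeval_X, map_sub]
    rw [← MvPolynomial.algebraMap_eq, AlgHom.commutes]

/-- An affine open neighbourhood of a point on which `f` is standard smooth of relative dimension `g`.
(`SmoothOfRelativeDimension.exists_isStandardSmoothOfRelativeDimension` gives affine opens `V ∋ x` of
`A` and `U'` of `Spec K` with `V ≤ f ⁻¹ᵁ U'`; `U'` is a nonempty open of a one point space, so `U' = ⊤`;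
`kΓ f V = (f.appLE ⊤ V _).hom.comp (ΓSpecIso).inv.hom`; standard smoothness respects
isomorphisms.) -/
theorem exists_standardSmooth_chart (f : A ⟶ SK K) (g : ℕ) [SmoothOfRelativeDimension g f] (x : A) :
    ∃ V : A.Opens, IsAffineOpen V ∧ x ∈ V ∧
      Algebra.IsStandardSmoothOfRelativeDimension g K (Sec f V) := by
  obtain ⟨U, hU, V, hV, hxV, e, hf⟩ :=
    SmoothOfRelativeDimension.exists_isStandardSmoothOfRelativeDimension (n := g) (f := f) x
  have hUtop : U = ⊤ := by
    rw [eq_top_iff]
    intro y _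
    have h1 : y = f x := Subsingleton.elim (α := PrimeSpectrum K) _ _
    rw [h1]
    exact e hxV
  subst hUtop
  let ε : K ≃+* Γ(SK K, ⊤) := (Scheme.ΓSpecIso (CommRingCat.of K)).symm.commRingCatIsoToRingEquiv
  have hf' : RingHom.IsStandardSmoothOfRelativeDimension g
      ((f.appLE ⊤ V e).hom.comp ε.toRingHom) :=
    RingHom.isStandardSmoothOfRelativeDimension_respectsIso.2 _ ε hf
  refine ⟨V, hV, hxV, ?_⟩
  have hk : kΓ f V = (f.appLE ⊤ V e).hom.comp ε.toRingHom := rfl
  have : RingHom.IsStandardSmoothOfRelativeDimension g (kΓ f V) := by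
    rw [hk]
    exact hf'
  exact this

/-- **SCH-EC.**  (`exists_standardSmooth_chart` at `pt o`,
`Algebra.IsStandardSmoothOfRelativeDimension.exists_etale_mvPolynomial` (Mathlib,
`RingTheory/RingHom/StandardSmooth.lean`), `exists_etale_translate` with
`a j := evalAlg ho U _ (φ (X j))`.) -/
theorem exists_etaleChart (f : A ⟶ SK K) (g : ℕ) [SmoothOfRelativeDimension g f] (o : SK K ⟶ A)
    (ho : o ≫ f = 𝟙 _) : Nonempty (EtaleChart f o ho g) := by
  obtain ⟨V, hV, hxV, hss⟩ := exists_standardSmooth_chart f g (pt o)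
  have homem : ⊤ ≤ o ⁻¹ᵁ V := by
    intro y _
    have h1 : y = IsLocalRing.closedPoint K := Subsingleton.elim (α := PrimeSpectrum K) _ _
    rw [h1]
    exact hxV
  obtain ⟨φ, hφ⟩ :=
    Algebra.IsStandardSmoothOfRelativeDimension.exists_etale_mvPolynomial g K (Sec f V)
  obtain ⟨φ', hφ', hX⟩ :=
    exists_etale_translate φ hφ (fun j => evalAlg ho V homem (φ (MvPolynomial.X j)))
  refine ⟨⟨V, hV, homem, φ', hφ', fun j => ?_⟩⟩
  rw [hX, map_sub, AlgHom.commutes]
  exact sub_self _

end Fermat.Agent.S26.Curves
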