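/-
S26, block CURVES (architect helper26), leaf SCH-NC: the affine charts of the normalisation.
-/
import Fermat.Agent.S26.Curves.Defs

set_option autoImplicit false

universe u

open CategoryTheory CategoryTheory.Limits AlgebraicGeometry IntermediateField

namespace Fermat.Agent.S26.Curves

open Fermat.Agent.S25.Geom

section ChartAux

theorem chart_isIntegral_iff {R S T R' : Type*} [CommRing R] [CommRing S] [CommRing T]
    [CommRing R'] [Algebra R S] [Algebra R' T] (φ : S ≃+* T) (π : R →+* R')
    (hπ : Function.Surjective π) (hc : ∀ r, algebraMap R' T (π r) = φ (algebraMap R S r)) (y : S) :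
    IsIntegral R y ↔ IsIntegral R' (φ y) := by
  have hc' : (algebraMap R' T).comp π = (φ : S →+* T).comp (algebraMap R S) := RingHom.ext hc
  constructor
  · rintro ⟨p, hp, hy⟩
    refine ⟨p.map π, hp.map π, ?_⟩
    rw [Polynomial.eval₂_map, hc']
    have := Polynomial.hom_eval₂ p (algebraMap R S) (φ : S →+* T) y
    rw [hy, map_zero] at this
    exact this.symm
  · rintro ⟨q, hq, hy⟩
    obtain ⟨p, rfl, -, hp⟩ := Polynomial.lifts_and_natDegree_eq_and_monic
      ((Polynomial.mem_lifts q).2 (Polynomial.map_surjective π hπ q)) hq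
    refine ⟨p, hp, ?_⟩
    rw [Polynomial.eval₂_map, hc'] at hy
    have := Polynomial.hom_eval₂ p (algebraMap R S) (φ : S →+* T) y
    apply φ.injective
    rw [map_zero]
    exact this.trans hy

/-- transport of integral closures along a ring isomorphism (and a surjection of base rings). -/
noncomputable def chartIntegralClosureEquiv {R S T R' : Type*} [CommRing R] [CommRing S]
    [CommRing T] [CommRing R'] [Algebra R S] [Algebra R' T] (φ : S ≃+* T) (π : R →+* R')
    (hπ : Function.Surjective π) (hc : ∀ r, algebraMap R' T (π r) = φ (algebraMap R S r)) :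
    integralClosure R S ≃+* integralClosure R' T where
  toFun y := ⟨φ y.1, (chart_isIntegral_iff φ π hπ hc y.1).1 y.2⟩
  invFun z := ⟨φ.symm z.1, (chart_isIntegral_iff φ π hπ hc _).2 (by
    rw [φ.apply_symm_apply]; exact z.2)⟩
  left_inv y := Subtype.ext (φ.symm_apply_apply _)
  right_inv z := Subtype.ext (φ.apply_symm_apply _)
  map_mul' a b := Subtype.ext (map_mul φ _ _)
  map_add' a b := Subtype.ext (map_add φ _ _)

variable {A : Scheme.{u}} (η : A)

theorem chart_preimage_eq_top {W : A.Opens} (h : η ∈ W) :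
    A.fromSpecResidueField η ⁻¹ᵁ W = ⊤ := by
  ext x
  simp [h]

theorem chart_preimage_eq_bot {W : A.Opens} (h : η ∉ W) :
    A.fromSpecResidueField η ⁻¹ᵁ W = ⊥ := by
  ext x
  simp [h]

set_option backward.isDefEq.respectTransparency false in
theorem chart_appLE_ΓSpecIso {W : A.Opens} (h : η ∈ W) :
    (A.fromSpecResidueField η).appLE W ⊤ (chart_preimage_eq_top η h).ge ≫
      (Scheme.ΓSpecIso (A.residueField η)).hom = A.evaluation W η h := by
  simp only [Scheme.fromSpecResidueField, Scheme.Hom.comp_appLE, Scheme.fromSpecStalk_app h,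
    Category.assoc]
  rw [Scheme.Hom.map_appLE_assoc]
  have h2 : ∀ hle, Scheme.Hom.appLE (Spec.map (A.residue η)) ⊤ ⊤ hle = (Spec.map (A.residue η)).appTop := by
    intro hle
    rw [Scheme.Hom.appTop, Scheme.Hom.app_eq_appLE]
    rfl
  rw [h2, Scheme.ΓSpecIso_naturality, Iso.inv_hom_id_assoc]
  rfl

/-- sections of `Spec κ(η)` over the preimage of `W ∋ η`. -/
noncomputable def chartΓIso {W : A.Opens} (h : η ∈ W) :
    Γ(Spec (A.residueField η), A.fromSpecResidueField η ⁻¹ᵁ W) ≅ A.residueField η :=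
  (Spec (A.residueField η)).presheaf.mapIso (eqToIso (chart_preimage_eq_top η h).symm).op ≪≫
    Scheme.ΓSpecIso _

theorem chartΓIso_app {W : A.Opens} (h : η ∈ W) :
    (A.fromSpecResidueField η).app W ≫ (chartΓIso η h).hom = A.evaluation W η h := by
  rw [← chart_appLE_ΓSpecIso η h]
  rfl

end ChartAux

variable {K : Type u} [Field K] {A : Scheme.{u}} (f : A ⟶ SK K) (η : A) [QuasiSeparatedSpace A]

/-- Over an affine open `W ∋ η` the normalisation is the spectrum of the integral closure of (the
image of) `Γ(A, W)` in `κ(η)`.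
(`j := A.fromSpecResidueField η`.  Mathlib: `Scheme.Hom.normalizationObjIso j hW :
Γ(j.normalization, j.fromNormalization ⁻¹ᵁ W) ≅ integralClosure Γ(A, W) Γ(Spec κ(η), j ⁻¹ᵁ W)` and
`Scheme.Hom.fromNormalization_app`.  `j ⁻¹ᵁ W = ⊤` (`Scheme.range_fromSpecResidueField`),
`Γ(Spec κ(η), ⊤) ≅ κ(η)` (`Scheme.ΓSpecIso`), under which `j.app W` becomes `A.evaluation W η h`.
An element is integral over `Γ(A, W)` iff it is integral over the image of `Γ(A, W)`.) -/
theorem exists_chartEquiv {W : A.Opens} (hW : IsAffineOpen W) (h : η ∈ W) :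
    ∃ e : Γ(Nor η, norι η ⁻¹ᵁ W) ≃+* RW f η W h,
      ∀ s : Γ(A, W), e ((norι η).app W s) = toRW f η W h s := by
  let := ((A.fromSpecResidueField η).app W).hom.toAlgebra
  let e₁ : Γ(Nor η, norι η ⁻¹ᵁ W) ≃+* integralClosure Γ(A, W)
      Γ(Spec (A.residueField η), A.fromSpecResidueField η ⁻¹ᵁ W) :=
    ((A.fromSpecResidueField η).normalizationObjIso hW).commRingCatIsoToRingEquiv
  let φ : Γ(Spec (A.residueField η), A.fromSpecResidueField η ⁻¹ᵁ W) ≃+* Res f η :=
    (chartΓIso η h).commRingCatIsoToRingEquiv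
  have hφ : ∀ s : Γ(A, W), φ ((A.fromSpecResidueField η).app W s) = evAlg f η W h s := by
    intro s
    exact congr($(chartΓIso_app η h).hom s)
  let e₂ : integralClosure Γ(A, W)
      Γ(Spec (A.residueField η), A.fromSpecResidueField η ⁻¹ᵁ W) ≃+* RW f η W h :=
    chartIntegralClosureEquiv φ (evAlg f η W h).rangeRestrict.toRingHom
      (evAlg f η W h).rangeRestrict_surjective (fun r => (hφ r).symm)
  refine ⟨e₁.trans e₂, fun s => ?_⟩
  have h1 : e₁ ((norι η).app W s) = algebraMap Γ(A, W) _ s := by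
    have h2 := (A.fromSpecResidueField η).fromNormalization_app hW
    have h3 : (A.fromSpecResidueField η).fromNormalization.app W ≫
        ((A.fromSpecResidueField η).normalizationObjIso hW).hom =
        CommRingCat.ofHom (algebraMap _ _) := by
      rw [h2, Category.assoc, Iso.inv_hom_id, Category.comp_id]
    exact congr($(h3).hom s)
  apply Subtype.ext
  refine Eq.trans ?_ (coe_toRW f η W h s).symm
  rw [RingEquiv.trans_apply, h1]
  exact hφ s

/-- Over an affine open not containing `η` the normalisation is empty.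
(`j ⁻¹ᵁ W = ⊥`, sections over `⊥` form the zero ring, `normalizationObjIso`.) -/
theorem subsingleton_of_notMem {W : A.Opens} (hW : IsAffineOpen W) (h : η ∉ W) :
    Subsingleton Γ(Nor η, norι η ⁻¹ᵁ W) := by
  let := ((A.fromSpecResidueField η).app W).hom.toAlgebra
  let e₁ : Γ(Nor η, norι η ⁻¹ᵁ W) ≃+* integralClosure Γ(A, W)
      Γ(Spec (A.residueField η), A.fromSpecResidueField η ⁻¹ᵁ W) :=
    ((A.fromSpecResidueField η).normalizationObjIso hW).commRingCatIsoToRingEquiv
  have h1 : Subsingleton Γ(Spec (A.residueField η), A.fromSpecResidueField η ⁻¹ᵁ W) := by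
    rw [chart_preimage_eq_bot η h]
    infer_instance
  have h2 : Subsingleton (integralClosure Γ(A, W)
      Γ(Spec (A.residueField η), A.fromSpecResidueField η ⁻¹ᵁ W)) :=
    ⟨fun a b => Subtype.ext (Subsingleton.elim _ _)⟩
  exact e₁.toEquiv.subsingleton

/-- The chosen identification. -/
noncomputable def chartEquiv {W : A.Opens} (hW : IsAffineOpen W) (h : η ∈ W) :
    Γ(Nor η, norι η ⁻¹ᵁ W) ≃+* RW f η W h :=
  (exists_chartEquiv f η hW h).choose

theorem chartEquiv_app {W : A.Opens} (hW : IsAffineOpen W) (h : η ∈ W) (s : Γ(A, W)) :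
    chartEquiv f η hW h ((norι η).app W s) = toRW f η W h s :=
  (exists_chartEquiv f η hW h).choose_spec s

/-- the identification is `K`-linear.
(`kΓ (norc f η) (norι η ⁻¹ᵁ W) a = (norι η).app W (kΓ f W a)` by `Scheme.Hom.comp_appLE`-type lemmas,
then `chartEquiv_app` and `AlgHom.commutes`.) -/
theorem chartEquiv_kΓ {W : A.Opens} (hW : IsAffineOpen W) (h : η ∈ W) (a : K) :
    chartEquiv f η hW h (kΓ (norc f η) (norι η ⁻¹ᵁ W) a) = algebraMap K (RW f η W h) a := by
  have h1 : kΓ (norc f η) (norι η ⁻¹ᵁ W) a = (norι η).app W (kΓ f W a) := by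
    have h2 : (norc f η).appLE ⊤ (norι η ⁻¹ᵁ W) le_top =
        f.appLE ⊤ W le_top ≫ (norι η).app W := by
      rw [Scheme.Hom.app_eq_appLE]
      exact (Scheme.Hom.appLE_comp_appLE (norι η) f ⊤ W (norι η ⁻¹ᵁ W) le_top le_rfl).symm
    exact congr($(h2).hom ((Scheme.ΓSpecIso (CommRingCat.of K)).inv.hom a))
  rw [h1, chartEquiv_app]
  exact (toRW f η W h).commutes a

theorem isAffineOpen_preimage {W : A.Opens} (hW : IsAffineOpen W) :
    IsAffineOpen (norι η ⁻¹ᵁ W) :=
  hW.preimage (norι η)

/-- a point of the normalisation lies over an affine open containing `η`. -/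
theorem mem_of_mem_preimage {W : A.Opens} (hW : IsAffineOpen W) (x : Nor η)
    (hx : x ∈ norι η ⁻¹ᵁ W) : η ∈ W := by
  by_contra h
  have h1 := subsingleton_of_notMem η hW h
  have h2 : (1 : (Nor η).presheaf.stalk x) = 0 := by
    rw [← map_one ((Nor η).presheaf.germ (norι η ⁻¹ᵁ W) x hx).hom,
      ← map_zero ((Nor η).presheaf.germ (norι η ⁻¹ᵁ W) x hx).hom]
    exact congrArg _ (Subsingleton.elim _ _)
  exact one_ne_zero h2

end Fermat.Agent.S26.Curves
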