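/-
S26, block CURVES (architect helper26), leaf SCH-FRAC: sections over an affine open and the residue
field of a point.
-/
import Fermat.Agent.S26.Curves.Defs

set_option autoImplicit false

universe u

open CategoryTheory CategoryTheory.Limits AlgebraicGeometry IntermediateField

namespace Fermat.Agent.S26.Curves

open Fermat.Agent.S25.Geom

variable {K : Type u} [Field K] {A : Scheme.{u}} (f : A ⟶ SK K) (η : A)

/-- `κ(η)` is the fraction field of the image of `Γ(A, W)`.
(`A.residue η` is surjective; the stalk at `η` is the localisation of `Γ(A, W)` at the prime of `η`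
(`IsAffineOpen.isLocalization_stalk`), so a germ is `germ a / germ b` with `germ b` a unit, i.e.
`evaluation b ≠ 0`.) -/
theorem evAlg_frac {W : A.Opens} (hW : IsAffineOpen W) (h : η ∈ W) (x : Res f η) :
    ∃ a b : Sec f W, evAlg f η W h b ≠ 0 ∧ x = evAlg f η W h a / evAlg f η W h b := by
  obtain ⟨y, hy⟩ := A.residue_surjective η x
  letI : Algebra Γ(A, W) (A.presheaf.stalk η) :=
    TopCat.Presheaf.algebra_section_stalk A.presheaf (⟨η, h⟩ : W)
  have hloc : IsLocalization.AtPrime (A.presheaf.stalk η) (hW.primeIdealOf ⟨η, h⟩).asIdeal :=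
    hW.isLocalization_stalk ⟨η, h⟩
  obtain ⟨⟨a, b⟩, hab⟩ := IsLocalization.surj (hW.primeIdealOf ⟨η, h⟩).asIdeal.primeCompl y
  have hunit : IsUnit (A.presheaf.germ W η h (b : Γ(A, W))) :=
    IsLocalization.map_units (A.presheaf.stalk η) b
  have hab' : y * A.presheaf.germ W η h (b : Γ(A, W)) = A.presheaf.germ W η h a := hab
  have hb : evAlg f η W h (b : Γ(A, W)) ≠ 0 := (hunit.map (A.residue η).hom).ne_zero
  refine ⟨a, (b : Γ(A, W)), hb, ?_⟩
  rw [eq_div_iff hb, ← hy]
  have h1 := congrArg (A.residue η).hom hab'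
  rw [map_mul] at h1
  exact h1

/-- (`LocallyOfFiniteType`: `f.finiteType_appLE`/`HasRingHomProperty.appLE`, as in
`S25.Geom.smooth_sec`.) -/
theorem sec_finiteType [LocallyOfFiniteType f] {W : A.Opens} (hW : IsAffineOpen W) :
    Algebra.FiniteType K (Sec f W) := by
  have h1 : (f.appLE ⊤ W le_top).hom.FiniteType :=
    f.finiteType_appLE (isAffineOpen_top (Spec (CommRingCat.of K))) hW le_top
  have h2 : ((Scheme.ΓSpecIso (CommRingCat.of K)).inv.hom).FiniteType :=
    RingHom.FiniteType.of_surjective _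
      (ConcreteCategory.bijective_of_isIso (Scheme.ΓSpecIso (CommRingCat.of K)).inv).2
  have h3 : (kΓ f W).FiniteType := h1.comp h2
  exact h3

theorem evAlg_range_fg [LocallyOfFiniteType f] {W : A.Opens} (hW : IsAffineOpen W) (h : η ∈ W) :
    (evAlg f η W h).range.FG := by
  have h1 := (sec_finiteType f hW).out
  rw [← Algebra.map_top]
  exact h1.map _

/-- reformulation of `evAlg_frac` for the subalgebra `(evAlg f η W h).range`. -/
theorem evAlg_range_frac {W : A.Opens} (hW : IsAffineOpen W) (h : η ∈ W) (x : Res f η) :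
    ∃ a ∈ (evAlg f η W h).range, ∃ b ∈ (evAlg f η W h).range, b ≠ 0 ∧ x = a / b := by
  obtain ⟨a, b, hb, hx⟩ := evAlg_frac f η hW h x
  exact ⟨_, ⟨a, rfl⟩, _, ⟨b, rfl⟩, hb, hx⟩

end Fermat.Agent.S26.Curves
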