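/-
S26, block CURVES (architect helper26), leaf SCH-FIN: the normalisation is finite over `A`.
-/
import Fermat.Agent.S26.Curves.Sch.Chart
import Fermat.Agent.S26.Curves.Sch.Frac
import Fermat.Agent.S26.Curves.Alg.Fin

set_option autoImplicit false

universe u

open CategoryTheory CategoryTheory.Limits AlgebraicGeometry IntermediateField

namespace Fermat.Agent.S26.Curves

open Fermat.Agent.S25.Geom

variable {K : Type u} [Field K] [IsAlgClosed K] {A : Scheme.{u}} (f : A ⟶ SK K) (η : A)
  [QuasiSeparatedSpace A]

/-- (`IsFinite` = `IsAffineHom` (instance: integral) + `∀ W` affine, `((norι η).app W).hom.Finite`.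
If `η ∉ W` the target is the zero ring (`subsingleton_of_notMem`).  If `η ∈ W`: `fin_finite` applied
to `B := (evAlg f η W h).range` (`evAlg_range_frac`) gives `Module.Finite B (RW f η W h)`;
`Γ(A, W) → B` is surjective, so `toRW` is a finite ring hom; transport along `chartEquiv`
(`chartEquiv_app`; `RingHom.Finite.of_surjective`, `RingHom.Finite.comp`, `RingHom.Finite` respects
isomorphisms).) -/
theorem isFinite_norι (hη : IsCurvePoint f η) : IsFinite (norι η) := by
  obtain ⟨t, ht, hfin, hsep⟩ := hη
  refine ⟨fun W hW => ?_⟩
  by_cases h : η ∈ W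
  · -- the chart
    have hB : Module.Finite (evAlg f η W h).range (RW f η W h) :=
      fin_finite (evAlg f η W h).range (evAlg_range_frac f η hW h) t ht
    have h1 : (algebraMap (evAlg f η W h).range (RW f η W h)).Finite := hB
    have h2 : ((evAlg f η W h).rangeRestrict : Sec f W →+* (evAlg f η W h).range).Finite :=
      RingHom.Finite.of_surjective _ (evAlg f η W h).rangeRestrict_surjective
    have h3 : ((toRW f η W h : Sec f W →ₐ[K] RW f η W h) : Sec f W →+* RW f η W h).Finite :=
      h1.comp h2
    have h4 : ((chartEquiv f η hW h).symm : RW f η W h →+* Γ(Nor η, norι η ⁻¹ᵁ W)).Finite :=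
      RingHom.Finite.of_surjective _ (chartEquiv f η hW h).symm.surjective
    have h5 := h4.comp h3
    have h6 : ((norι η).app W).hom = ((chartEquiv f η hW h).symm : RW f η W h →+* _).comp
        ((toRW f η W h : Sec f W →ₐ[K] RW f η W h) : Sec f W →+* RW f η W h) := by
      ext s
      apply (chartEquiv f η hW h).injective
      rw [chartEquiv_app]
      exact ((chartEquiv f η hW h).apply_symm_apply _).symm
    rw [h6]
    exact h5
  · have := subsingleton_of_notMem η hW h
    exact RingHom.Finite.of_surjective _ (fun y => ⟨0, Subsingleton.elim _ _⟩)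

theorem isProper_norc [IsProper f] (hη : IsCurvePoint f η) : IsProper (norc f η) := by
  haveI := isFinite_norι f η hη
  unfold norc
  infer_instance

end Fermat.Agent.S26.Curves
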