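/-
S26, block CURVES (architect helper26), leaf SCH-GI: an integral scheme over an algebraically closed
field is geometrically integral.
-/
import Mathlib
import Fermat.Agent.S27.H.TensorDomain

set_option autoImplicit false

universe u

open CategoryTheory CategoryTheory.Limits AlgebraicGeometry

namespace Fermat.Agent.S26.Curves

/-- A scheme covered by integral open subschemes which pairwise meet is integral.
(Reduced is local.  Irreducible: a nonempty space covered by irreducible opens which pairwise
intersect is irreducible.) -/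
theorem isIntegral_of_cover {Z : Scheme.{u}} {ι : Type*} [Nonempty ι] (U : ι → Z.Opens)
    (hcov : ⨆ i, U i = ⊤) (hint : ∀ i, IsIntegral (U i).toScheme)
    (hmeet : ∀ i j, (U i ⊓ U j : Z.Opens) ≠ ⊥) : IsIntegral Z := by
  have hU : TopologicalSpace.IsOpenCover U := hcov
  have hred : IsReduced Z := by
    have h1 : ∀ i, IsReduced ((Z.openCoverOfIsOpenCover U hU).X i) := fun i => by
      have h2 : IsIntegral (U i).toScheme := hint i
      exact (inferInstance : IsReduced (U i).toScheme)
    exact IsReduced.of_openCover Z (Z.openCoverOfIsOpenCover U hU)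
  have hirr : IrreducibleSpace Z := by
    have hpre : PreirreducibleSpace Z :=
      PreirreducibleSpace.of_isOpenCover (U := U)
        (fun i j _ => by
          show ¬ Disjoint (U i) (U j)
          rw [disjoint_iff]; exact hmeet i j) hU
        (fun i => by
          have h2 : IsIntegral (U i).toScheme := hint i
          exact (inferInstance : IrreducibleSpace (U i).toScheme).toPreirreducibleSpace)
    have hne : Nonempty Z := by
      obtain ⟨i⟩ := ‹Nonempty ι›
      have h1 : Nonempty (U i).toScheme := (hint i).nonempty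
      exact ⟨(h1.some).1⟩
    exact { toPreirreducibleSpace := hpre, toNonempty := hne }
  exact isIntegral_of_irreducibleSpace_of_isReduced Z

open scoped TensorProduct in
/-- the affine piece of the base change -/
theorem geomInt_isIntegral_piece {K : Type u} [Field K] [IsAlgClosed K] {X : Scheme.{u}}
    [IsIntegral X] (c : X ⟶ Spec (CommRingCat.of K)) {K' : Type u} [Field K'] [Algebra K K']
    {Y : Scheme.{u}} (fst : Y ⟶ X) (snd : Y ⟶ Spec (CommRingCat.of K'))
    (hpb : IsPullback fst snd c (Spec.map (CommRingCat.ofHom (algebraMap K K'))))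
    (U : X.Opens) (hU : IsAffineOpen U) (hne : U ≠ ⊥) : IsIntegral (fst ⁻¹ᵁ U).toScheme := by
  have h1 := (isPullback_morphismRestrict fst U).paste_vert hpb
  obtain ⟨ψ, hψ⟩ := Spec.map_surjective (hU.isoSpec.inv ≫ U.ι ≫ c)
  algebraize [ψ.hom]
  have hneU : Nonempty U := by
    by_contra hcon
    apply hne
    ext x
    simp only [TopologicalSpace.Opens.coe_bot, Set.mem_empty_iff_false, iff_false]
    exact fun hx => hcon ⟨⟨x, hx⟩⟩
  have hdomU : IsDomain Γ(X, U) := inferInstance
  have hdom : IsDomain (Γ(X, U) ⊗[K] K') :=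
    Fermat.Agent.S27.H.isDomain_tensorProduct_of_isAlgClosed K Γ(X, U) K'
  have h2 : IsPullback ((fst ∣_ U) ≫ hU.isoSpec.hom) ((fst ⁻¹ᵁ U).ι ≫ snd)
      (Spec.map (CommRingCat.ofHom (algebraMap K Γ(X, U))))
      (Spec.map (CommRingCat.ofHom (algebraMap K K'))) := by
    refine h1.of_iso (Iso.refl _) hU.isoSpec (Iso.refl _) (Iso.refl _) (by simp) (by simp) ?_
      (by simp)
    have : Spec.map (CommRingCat.ofHom (algebraMap K Γ(X, U))) = Spec.map ψ := rfl
    rw [this, hψ]
    simp
  have : IsIntegral (Spec (CommRingCat.of (Γ(X, U) ⊗[K] K'))) := inferInstance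
  exact IsIntegral.of_isIso ((pullbackSpecIso K Γ(X, U) K').symm ≪≫ h2.isoPullback.symm).hom

/-- **SCH-GI.**  (Use `GeometricallyIntegral` = `geometrically IsIntegral`,
`geometrically_iff_of_commRing` as in `Fermat/Agent/S25/Z/AlgEquiv/FamScheme.lean`
(`famHom_geometricallyIntegral`).  For a field extension `K'` of `K` the base change `X_{K'}` is covered
by the `U_{K'} = Spec (Γ(X, U) ⊗[K] K')`, `U` nonempty affine open of `X`; these are integral by
`S27.H` `isDomain_tensorProduct_of_isAlgClosed`; `U_{K'} ∩ V_{K'} = (U ∩ V)_{K'}` is nonempty because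
`U ∩ V` is nonempty (`X` irreducible) and `X_{K'} → X` is surjective (base change of the surjective
`Spec K' → Spec K`).  Conclude by `isIntegral_of_cover`.) -/
theorem geometricallyIntegral_of_isAlgClosed {K : Type u} [Field K] [IsAlgClosed K] {X : Scheme.{u}}
    [IsIntegral X] (c : X ⟶ Spec (CommRingCat.of K)) : GeometricallyIntegral c := by
  refine ⟨?_⟩
  rw [geometrically_iff_of_commRing]
  intro K' _ _ Y fst snd hpb
  have hsurj0 : Surjective (Spec.map (CommRingCat.ofHom (algebraMap K K'))) := by
    refine ⟨fun x => ?_⟩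
    have h1 : Nonempty (PrimeSpectrum K') := inferInstance
    have h2 : Subsingleton (PrimeSpectrum K) := inferInstance
    exact ⟨h1.some, h2.elim _ _⟩
  have hsurj : Surjective fst := MorphismProperty.of_isPullback hpb.flip hsurj0
  have hex : ∀ x : X, ∃ W : X.Opens, IsAffineOpen W ∧ x ∈ W := by
    intro x
    obtain ⟨W, hW, hxW, -⟩ := exists_isAffineOpen_mem_and_subset (U := ⊤) (x := x) trivial
    exact ⟨W, hW, hxW⟩
  have hι : Nonempty {U : X.Opens // IsAffineOpen U ∧ U ≠ ⊥} := by
    obtain ⟨x⟩ := (inferInstance : Nonempty X)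
    obtain ⟨W, hW, hxW⟩ := hex x
    refine ⟨⟨W, hW, ?_⟩⟩
    rintro rfl
    exact hxW
  refine isIntegral_of_cover (fun U : {U : X.Opens // IsAffineOpen U ∧ U ≠ ⊥} => fst ⁻¹ᵁ U.1)
    ?_ ?_ ?_
  · rw [eq_top_iff]
    intro y _
    obtain ⟨W, hW, hxW⟩ := hex (fst y)
    rw [TopologicalSpace.Opens.mem_iSup]
    refine ⟨⟨W, hW, ?_⟩, hxW⟩
    rintro rfl
    exact hxW
  · intro U
    exact geomInt_isIntegral_piece c fst snd hpb U.1 U.2.1 U.2.2
  · intro U V hbot
    have hUne : (U.1 : Set X).Nonempty := by
      rw [Set.nonempty_iff_ne_empty]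
      intro h
      exact U.2.2 (TopologicalSpace.Opens.ext h)
    have hVne : (V.1 : Set X).Nonempty := by
      rw [Set.nonempty_iff_ne_empty]
      intro h
      exact V.2.2 (TopologicalSpace.Opens.ext h)
    obtain ⟨x, hxU, hxV⟩ := nonempty_preirreducible_inter U.1.isOpen V.1.isOpen hUne hVne
    obtain ⟨y, rfl⟩ := hsurj.surj x
    have hy : y ∈ (fst ⁻¹ᵁ U.1 ⊓ fst ⁻¹ᵁ V.1 : Y.Opens) := ⟨hxU, hxV⟩
    rw [hbot] at hy
    exact hy

end Fermat.Agent.S26.Curves
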