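/-
S26, block CURVES (architect helper26), leaf SCH-KPT: general lemmas on `K`-points of `K`-schemes
lying in an affine open.
-/
import Fermat.Agent.S26.Curves.Defs

set_option autoImplicit false

universe u

open CategoryTheory CategoryTheory.Limits AlgebraicGeometry

namespace Fermat.Agent.S26.Curves

open Fermat.Agent.S25.Geom

variable {K : Type u} [Field K] {X Y : Scheme.{u}}

/-- equality of evaluations = equality of the maps on sections. -/
private theorem kpoint_appLE_eq {V : X.Opens} (x y : SK K ⟶ X) (hx : ⊤ ≤ x ⁻¹ᵁ V)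
    (hy : ⊤ ≤ y ⁻¹ᵁ V) (h : evalΓ x V hx = evalΓ y V hy) : x.appLE V ⊤ hx = y.appLE V ⊤ hy := by
  rw [← cancel_mono (Scheme.ΓSpecIso (CommRingCat.of K)).hom]
  ext s
  exact congr($h s)

/-- Two `K`-points in the same affine open with the same evaluation are equal.
(Both factor through `hV.fromSpec`: `IsAffineOpen.fromSpec`, `IsAffineOpen.SpecMap_appLE_fromSpec`;
morphisms between spectra are determined by the ring maps.) -/
theorem kpoint_ext {V : X.Opens} (hV : IsAffineOpen V) (x y : SK K ⟶ X) (hx : ⊤ ≤ x ⁻¹ᵁ V)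
    (hy : ⊤ ≤ y ⁻¹ᵁ V) (h : evalΓ x V hx = evalΓ y V hy) : x = y := by
  have h1 := IsAffineOpen.SpecMap_appLE_fromSpec x hV (isAffineOpen_top (SK K)) hx
  have h2 := IsAffineOpen.SpecMap_appLE_fromSpec y hV (isAffineOpen_top (SK K)) hy
  rw [kpoint_appLE_eq x y hx hy h, h2, IsAffineOpen.fromSpec_top] at h1
  exact ((cancel_epi _).1 h1).symm

/-- Evaluation at the image of a point. -/
theorem evalΓ_comp (φ : X ⟶ Y) (x : SK K ⟶ X) (W : Y.Opens) (hx : ⊤ ≤ x ⁻¹ᵁ (φ ⁻¹ᵁ W))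
    (hx' : ⊤ ≤ (x ≫ φ) ⁻¹ᵁ W) (s : Γ(Y, W)) :
    evalΓ (x ≫ φ) W hx' s = evalΓ x (φ ⁻¹ᵁ W) hx (φ.app W s) := by
  have h1 := Scheme.Hom.appLE_comp_appLE x φ W (φ ⁻¹ᵁ W) ⊤ le_rfl hx
  rw [Scheme.Hom.appLE_eq_app] at h1
  have h2 := congr($(h1).hom s)
  show (Scheme.ΓSpecIso (CommRingCat.of K)).hom.hom (((x ≫ φ).appLE W ⊤ hx').hom s) =
    (Scheme.ΓSpecIso (CommRingCat.of K)).hom.hom ((x.appLE (φ ⁻¹ᵁ W) ⊤ hx).hom ((φ.app W).hom s))
  rw [← h2]
  rfl

/-- evaluation at the identity point. -/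
private theorem kpoint_evalΓ_id (h : (⊤ : (SK K).Opens) ≤ (𝟙 (SK K)) ⁻¹ᵁ ⊤) (a : K) :
    evalΓ (𝟙 (SK K)) ⊤ h ((Scheme.ΓSpecIso (CommRingCat.of K)).inv.hom a) = a := by
  have h2 : (𝟙 (SK K) : SK K ⟶ SK K).appLE ⊤ ⊤ h = 𝟙 _ := by
    simp only [Scheme.Hom.appLE, Scheme.Hom.id_app]
    exact (SK K).presheaf.map_id _
  show (Scheme.ΓSpecIso (CommRingCat.of K)).hom.hom
    (((𝟙 (SK K) : SK K ⟶ SK K).appLE ⊤ ⊤ h).hom
      ((Scheme.ΓSpecIso (CommRingCat.of K)).inv.hom a)) = a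
  rw [h2]
  simp

/-- A ring homomorphism `Γ(X, V) → K` (`V` affine) defines a `K`-point.
(`x := Spec.map (CommRingCat.ofHom ρ) ≫ hV.fromSpec`.) -/
theorem exists_kpoint (c : X ⟶ SK K) {V : X.Opens} (hV : IsAffineOpen V) (ρ : Γ(X, V) →+* K)
    (hρ : ∀ a, ρ (kΓ c V a) = a) :
    ∃ x : SK K ⟶ X, x ≫ c = 𝟙 _ ∧ ∃ hx : ⊤ ≤ x ⁻¹ᵁ V, evalΓ x V hx = ρ := by
  set x : SK K ⟶ X := Spec.map (CommRingCat.ofHom ρ) ≫ hV.fromSpec with hxdef
  have hx : ⊤ ≤ x ⁻¹ᵁ V := by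
    intro z _
    show x z ∈ V
    have : x z ∈ Set.range hV.fromSpec := ⟨Spec.map (CommRingCat.ofHom ρ) z, by rw [hxdef]; rfl⟩
    rw [hV.range_fromSpec] at this
    exact this
  have happ : x.appLE V ⊤ hx =
      CommRingCat.ofHom ρ ≫ (Scheme.ΓSpecIso (CommRingCat.of K)).inv := by
    have h1 := IsAffineOpen.SpecMap_appLE_fromSpec x hV (isAffineOpen_top (SK K)) hx
    rw [IsAffineOpen.fromSpec_top, Scheme.isoSpec_Spec_inv] at h1
    have h2 : Spec.map (x.appLE V ⊤ hx) ≫ hV.fromSpec =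
        Spec.map (CommRingCat.ofHom ρ ≫ (Scheme.ΓSpecIso (CommRingCat.of K)).inv) ≫
          hV.fromSpec := by
      rw [h1, hxdef, Spec.map_comp, Category.assoc]
    exact Spec.map_injective ((cancel_mono _).1 h2)
  have hev : evalΓ x V hx = ρ := by
    have h1 : x.appLE V ⊤ hx ≫ (Scheme.ΓSpecIso (CommRingCat.of K)).hom = CommRingCat.ofHom ρ := by
      rw [happ, Category.assoc, Iso.inv_hom_id, Category.comp_id]
    ext s
    exact congr($(h1).hom s)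
  refine ⟨x, ?_, hx, hev⟩
  have htop1 : (⊤ : (SK K).Opens) ≤ (x ≫ c) ⁻¹ᵁ ⊤ := fun _ _ => trivial
  have htop2 : (⊤ : (SK K).Opens) ≤ (𝟙 (SK K)) ⁻¹ᵁ ⊤ := fun _ _ => trivial
  refine kpoint_ext (isAffineOpen_top (SK K)) (x ≫ c) (𝟙 _) htop1 htop2 ?_
  ext s
  obtain ⟨a, rfl⟩ : ∃ a : K, (Scheme.ΓSpecIso (CommRingCat.of K)).inv.hom a = s :=
    ⟨(Scheme.ΓSpecIso (CommRingCat.of K)).hom.hom s, by simp⟩
  refine Eq.trans ?_ (kpoint_evalΓ_id htop2 a).symm
  have h1 := Scheme.Hom.appLE_comp_appLE x c ⊤ V ⊤ le_top hx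
  have h2 := congr($(h1).hom ((Scheme.ΓSpecIso (CommRingCat.of K)).inv.hom a))
  have h3 : evalΓ x V hx (kΓ c V a) = a := by rw [hev, hρ]
  refine Eq.trans ?_ h3
  show (Scheme.ΓSpecIso (CommRingCat.of K)).hom.hom (((x ≫ c).appLE ⊤ ⊤ htop1).hom
    ((Scheme.ΓSpecIso (CommRingCat.of K)).inv.hom a)) = _
  rw [← h2]
  rfl

/-- Generators of the maximal ideal of the local ring at a `K`-point, from an elementary statement
on an affine open neighbourhood.
(The stalk is the localisation of `Γ(X, V)` at the prime of the point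
(`IsAffineOpen.isLocalization_stalk`); a germ `germ s / germ a` is a non-unit iff
`evalΓ x V hx s = 0` (`evalΓ_eq_zero_iff`, `Scheme.mem_basicOpen`); `germ a` is a unit if
`evalΓ x V hx a ≠ 0`.) -/
theorem span_germ_eq_maximalIdeal {V : X.Opens} (hV : IsAffineOpen V) (x : SK K ⟶ X)
    (hx : ⊤ ≤ x ⁻¹ᵁ V) (hp : pt x ∈ V) {ι : Type*} (t : ι → Γ(X, V))
    (ht : ∀ j, evalΓ x V hx (t j) = 0)
    (hspan : ∀ s, evalΓ x V hx s = 0 → ∃ a, evalΓ x V hx a ≠ 0 ∧ a * s ∈ Ideal.span (Set.range t)) :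
    Ideal.span (Set.range fun j => X.presheaf.germ V (pt x) hp (t j)) =
      IsLocalRing.maximalIdeal (X.presheaf.stalk (pt x)) := by
  have hunit : ∀ s : Γ(X, V), evalΓ x V hx s = 0 ↔ ¬ IsUnit (X.presheaf.germ V (pt x) hp s) := by
    intro s
    rw [evalΓ_eq_zero_iff, Scheme.mem_basicOpen _ _ _ hp]
  apply le_antisymm
  · rw [Ideal.span_le]
    rintro _ ⟨j, rfl⟩
    exact (hunit (t j)).1 (ht j)
  · intro z hz
    let _ : Algebra Γ(X, V) (X.presheaf.stalk (pt x)) :=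
      TopCat.Presheaf.algebra_section_stalk X.presheaf ⟨pt x, hp⟩
    have hloc : IsLocalization.AtPrime (X.presheaf.stalk (pt x))
        (hV.primeIdealOf ⟨pt x, hp⟩).asIdeal := hV.isLocalization_stalk ⟨pt x, hp⟩
    obtain ⟨⟨s, a⟩, hsa⟩ := IsLocalization.surj (hV.primeIdealOf ⟨pt x, hp⟩).asIdeal.primeCompl z
    have ha : IsUnit (X.presheaf.germ V (pt x) hp a.1) :=
      IsLocalization.map_units (X.presheaf.stalk (pt x)) a
    have hsa' : z * X.presheaf.germ V (pt x) hp a.1 = X.presheaf.germ V (pt x) hp s := hsa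
    have hs0 : evalΓ x V hx s = 0 := by
      rw [hunit, ← hsa']
      intro hu
      exact hz (isUnit_of_mul_isUnit_left hu)
    obtain ⟨b, hb, hbs⟩ := hspan s hs0
    have hbu : IsUnit (X.presheaf.germ V (pt x) hp b) := by
      by_contra hcon
      exact hb ((hunit b).2 hcon)
    have h1 : X.presheaf.germ V (pt x) hp (b * s) ∈
        Ideal.span (Set.range fun j => X.presheaf.germ V (pt x) hp (t j)) := by
      have := Ideal.mem_map_of_mem (X.presheaf.germ V (pt x) hp).hom hbs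
      rw [Ideal.map_span, ← Set.range_comp] at this
      exact this
    rw [map_mul, ← hsa'] at h1
    have h2 := (Ideal.unit_mul_mem_iff_mem _ hbu).1 h1
    exact (Ideal.mul_unit_mem_iff_mem _ ha).1 h2

end Fermat.Agent.S26.Curves
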