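/-
S26, block CURVES (architect helper26), leaf SCH-SML: from a standard smooth localisation of the
coordinate ring of an affine open to the defining condition of `SmoothOfRelativeDimension`.
-/
import Fermat.Agent.S26.Curves.Defs

set_option autoImplicit false

universe u

open CategoryTheory CategoryTheory.Limits AlgebraicGeometry

namespace Fermat.Agent.S26.Curves

open Fermat.Agent.S25.Geom

variable {K : Type u} [Field K] {X : Scheme.{u}}

/-- (`Γ(X, X.basicOpen r')` is the localisation of `Γ(X, V)` away from `r' = e.symm r`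
(`IsAffineOpen.isLocalization_basicOpen`), so it is isomorphic to `Localization.Away r` compatibly
with the maps from `K`; `c.appLE ⊤ _ _` is `kΓ c _` up to the isomorphism `Scheme.ΓSpecIso`;
`RingHom.IsStandardSmoothOfRelativeDimension` respects isomorphisms
(`RingHom.isStandardSmoothOfRelativeDimension_respectsIso`).) -/
theorem standardSmooth_appLE_basicOpen (c : X ⟶ SK K) {V : X.Opens} (hV : IsAffineOpen V)
    {R : Type u} [CommRing R] [Algebra K R] (e : Γ(X, V) ≃+* R)
    (he : ∀ a, e (kΓ c V a) = algebraMap K R a) (n : ℕ) (r : R)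
    (hr : Algebra.IsStandardSmoothOfRelativeDimension n K (Localization.Away r)) :
    (c.appLE ⊤ (X.basicOpen (e.symm r)) le_top).hom.IsStandardSmoothOfRelativeDimension n := by
  have hloc : IsLocalization.Away (e.symm r) Γ(X, X.basicOpen (e.symm r)) :=
    hV.isLocalization_basicOpen (e.symm r)
  have hmap : (Submonoid.powers (e.symm r)).map e.toMonoidHom = Submonoid.powers r := by
    rw [Submonoid.map_powers]
    congr 1
    exact e.apply_symm_apply r
  -- the isomorphism of the two localisations
  let ψ : Γ(X, X.basicOpen (e.symm r)) ≃+* Localization.Away r :=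
    IsLocalization.ringEquivOfRingEquiv (M := Submonoid.powers (e.symm r))
      (T := Submonoid.powers r) Γ(X, X.basicOpen (e.symm r)) (Localization.Away r) e hmap
  have hψ : ∀ x : Γ(X, V), ψ (algebraMap Γ(X, V) Γ(X, X.basicOpen (e.symm r)) x) =
      algebraMap R (Localization.Away r) (e x) := fun x =>
    IsLocalization.ringEquivOfRingEquiv_eq hmap x
  have hk : ∀ a : K, ψ (kΓ c (X.basicOpen (e.symm r)) a) =
      algebraMap K (Localization.Away r) a := by
    intro a
    have h1 : kΓ c (X.basicOpen (e.symm r)) a =
        algebraMap Γ(X, V) Γ(X, X.basicOpen (e.symm r)) (kΓ c V a) :=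
      (res_kΓ c (X.basicOpen_le (e.symm r)) a).symm
    rw [h1, hψ, he, ← IsScalarTower.algebraMap_apply]
  -- the global sections of `Spec K`
  let θ : Γ(SK K, ⊤) ≃+* K := (Scheme.ΓSpecIso (CommRingCat.of K)).commRingCatIsoToRingEquiv
  have hθ : ∀ y : Γ(SK K, ⊤), (Scheme.ΓSpecIso (CommRingCat.of K)).inv.hom (θ y) = y := by
    intro y
    exact θ.symm_apply_apply y
  have hfac : (c.appLE ⊤ (X.basicOpen (e.symm r)) le_top).hom =
      ψ.symm.toRingHom.comp ((algebraMap K (Localization.Away r)).comp θ.toRingHom) := by
    ext y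
    show _ = ψ.symm (algebraMap K (Localization.Away r) (θ y))
    rw [← hk, ψ.symm_apply_apply]
    show _ = (c.appLE ⊤ (X.basicOpen (e.symm r)) le_top).hom
      ((Scheme.ΓSpecIso (CommRingCat.of K)).inv.hom (θ y))
    rw [hθ]
  rw [hfac]
  have h0 : (algebraMap K (Localization.Away r)).IsStandardSmoothOfRelativeDimension n :=
    (RingHom.isStandardSmoothOfRelativeDimension_algebraMap n).2 hr
  exact (RingHom.isStandardSmoothOfRelativeDimension_respectsIso (n := n)).1 _ ψ.symm
    ((RingHom.isStandardSmoothOfRelativeDimension_respectsIso (n := n)).2 _ θ h0)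

end Fermat.Agent.S26.Curves
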