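/-
S26, block CURVES (architect helper26), leaf SCH-SM: the normalisation is smooth of relative
dimension 1.
-/
import Fermat.Agent.S26.Curves.Sch.Chart
import Fermat.Agent.S26.Curves.Sch.Frac
import Fermat.Agent.S26.Curves.Sch.SmoothLocal
import Fermat.Agent.S26.Curves.Alg.Fin
import Fermat.Agent.S26.Curves.Alg.Sm

set_option autoImplicit false

universe u

open CategoryTheory CategoryTheory.Limits AlgebraicGeometry IntermediateField

namespace Fermat.Agent.S26.Curves

open Fermat.Agent.S25.Geom

variable {K : Type u} [Field K] [IsAlgClosed K] {A : Scheme.{u}} (f : A ⟶ SK K) (η : A)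
  [QuasiSeparatedSpace A]

/-- `RW` is of finite type over `K` (finite over the finitely generated `K`-algebra
`(evAlg f η W h).range`: `fin_finite`, `evAlg_range_fg`, `evAlg_range_frac`). -/
theorem rw_finiteType [LocallyOfFiniteType f] (hη : IsCurvePoint f η) {W : A.Opens}
    (hW : IsAffineOpen W) (h : η ∈ W) : Algebra.FiniteType K (RW f η W h) := by
  obtain ⟨t, ht, hfin, hsep⟩ := hη
  have h1 : Module.Finite (evAlg f η W h).range (RW f η W h) :=
    fin_finite (evAlg f η W h).range (evAlg_range_frac f η hW h) t ht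
  have h2 : Algebra.FiniteType K (evAlg f η W h).range :=
    (Subalgebra.fg_iff_finiteType _).1 (evAlg_range_fg f η hW h)
  exact Algebra.FiniteType.trans h2 inferInstance

/-- (Let `x : Nor η`; choose an affine open `W ∋ norι η x` of `A`; `η ∈ W` (`mem_of_mem_preimage`);
`V := norι η ⁻¹ᵁ W` is affine, `e := chartEquiv f η hW h : Γ(Nor η, V) ≃+* RW`.  Let `q` be the prime
of `RW` corresponding to `x` (`{r | x ∉ (Nor η).basicOpen (e.symm r)}`), `m ⊇ q` a maximal ideal
(`Ideal.exists_le_maximal`).  `fin_uniformizer` gives `π`, `sm_main` (with `rw_finiteType`) gives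
`r ∉ m` with `Localization.Away r` standard smooth of relative dimension 1.  Then `r ∉ q`, i.e.
`x ∈ (Nor η).basicOpen (e.symm r)`, an affine open (`IsAffineOpen.basicOpen`);
`standardSmooth_appLE_basicOpen` (with `chartEquiv_kΓ`) concludes; the affine open of `Spec K` is
`⊤`.) -/
theorem smooth_norc [LocallyOfFiniteType f] (hη : IsCurvePoint f η) :
    SmoothOfRelativeDimension 1 (norc f η) := by
  refine ⟨fun x => ?_⟩
  obtain ⟨W, hW, hxW, -⟩ := exists_isAffineOpen_mem_and_subset (X := A) (x := norι η x)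
    (U := ⊤) trivial
  have hx : x ∈ norι η ⁻¹ᵁ W := hxW
  have h : η ∈ W := mem_of_mem_preimage η hW x hx
  have hV : IsAffineOpen (norι η ⁻¹ᵁ W) := isAffineOpen_preimage η hW
  have hft : Algebra.FiniteType K (RW f η W h) := rw_finiteType f η hη hW h
  obtain ⟨t, ht, hfin, hsep⟩ := hη
  -- the prime of `x`
  let g : RW f η W h →+* (Nor η).presheaf.stalk x :=
    ((Nor η).presheaf.germ (norι η ⁻¹ᵁ W) x hx).hom.comp
      (chartEquiv f η hW h).symm.toRingHom
  let q : Ideal (RW f η W h) := Ideal.comap g (IsLocalRing.maximalIdeal _)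
  have hq : q ≠ ⊤ := (Ideal.comap_isPrime g (IsLocalRing.maximalIdeal _)).ne_top
  obtain ⟨m, hm, hqm⟩ := Ideal.exists_le_maximal q hq
  obtain ⟨π, hπ, hπ0, hm'⟩ := fin_uniformizer (evAlg f η W h).range (evAlg_range_fg f η hW h)
    (evAlg_range_frac f η hW h) t ht m hm
  obtain ⟨r, hr, hsm⟩ := sm_main (K := K) m hm π hπ hπ0 hm'
  have hrq : r ∉ q := fun h' => hr (hqm h')
  have hxr : x ∈ (Nor η).basicOpen ((chartEquiv f η hW h).symm r) := by
    rw [Scheme.mem_basicOpen _ _ x hx]
    by_contra hu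
    exact hrq ((IsLocalRing.mem_maximalIdeal _).2 hu)
  exact ⟨⊤, isAffineOpen_top _, (Nor η).basicOpen ((chartEquiv f η hW h).symm r),
    hV.basicOpen _, hxr, le_top,
    standardSmooth_appLE_basicOpen (norc f η) hV (chartEquiv f η hW h)
      (chartEquiv_kΓ f η hW h) 1 r hsm⟩

end Fermat.Agent.S26.Curves
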